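import Fermat.Agent.Root.SummaryThreeSquares
import Mathlib.GroupTheory.OrderOfElement
import Mathlib.FieldTheory.Finite.Basic
import Mathlib.Data.ZMod.Basic
import Mathlib.Data.Nat.ChineseRemainder
import Mathlib.Tactic

/-!
# Watson's identity for six cubes

`(pq⁶ ± r³x)³`, `(pq⁶ ± r³y)³`, `(pr⁶ ± q³z)³` add up to `p³ (4q¹⁸ + 2r¹⁸) + 6pq⁶r⁶ (x² + y² + z²)`.
A suitable congruence class of `p` and a seventh cube divisible by `(qr)²` bring a large number into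
this form.
-/

set_option autoImplicit false

namespace FA.SevenCubes

/-- The residues modulo eight of sums of three squares used here. -/
def goodEight (n : ℕ) : Prop := n % 8 = 1 ∨ n % 8 = 2 ∨ n % 8 = 3 ∨ n % 8 = 5 ∨ n % 8 = 6

instance (n : ℕ) : Decidable (goodEight n) := by unfold goodEight; infer_instance

theorem exists_three_squares_of_goodEight {n : ℕ} (hn : goodEight n) :
    ∃ x y z : ℤ, (n : ℤ) = x ^ 2 + y ^ 2 + z ^ 2 := by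
  rw [FA.Summary.three_squares]
  rintro ⟨a, b, e⟩
  rcases Nat.eq_zero_or_pos a with rfl | ha
  · simp [goodEight] at hn
    omega
  · obtain ⟨a', rfl⟩ : ∃ a', a = a' + 1 := ⟨a - 1, by omega⟩
    rw [pow_succ', mul_assoc] at e
    simp [goodEight] at hn
    omega

/-- The congruence modulo `16`. -/
theorem exists_classes_sixteen : ∀ N : ZMod 16, ∃ p t n : ZMod 16,
    (p = 1 ∨ p = 3) ∧ goodEight n.val ∧ t ^ 3 + 6 * (p ^ 3 + p * n) = N := by decide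

theorem goodEight_of_eq_sixteen : ∀ p : ZMod 16, (p = 1 ∨ p = 3) → ∀ n m : ZMod 16,
    goodEight m.val → 6 * (p * n) = 6 * (p * m) → goodEight n.val := by decide

theorem sixth_pow_sixteen : ∀ a : ZMod 16, a.val % 2 = 1 →
    4 * a ^ 18 = 4 ∧ 2 * a ^ 18 = 2 ∧ 2 * a ^ 6 = 2 ∧ IsUnit a := by decide

/-- Cube roots, if `3` is prime to the totient. -/
theorem exists_cube_root {m : ℕ} [NeZero m] (h : Nat.Coprime m.totient 3) {u : ZMod m} (hu : IsUnit u) :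
    ∃ x : ZMod m, IsUnit x ∧ x ^ 3 = u := by
  have hc : (Nat.card (ZMod m)ˣ).Coprime 3 := by
    rw [Nat.card_eq_fintype_card, ZMod.card_units_eq_totient]
    exact h
  refine ⟨((powCoprime hc).symm hu.unit : (ZMod m)ˣ), Units.isUnit _, ?_⟩
  rw [← Units.val_pow_eq_pow_val]
  exact (congrArg Units.val ((powCoprime hc).apply_symm_apply hu.unit)).trans hu.unit_spec

theorem totient_coprime_three {q : ℕ} (hq : q.Prime) (hq6 : q % 6 = 5) (e : ℕ) :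
    Nat.Coprime (q ^ (e + 1)).totient 3 := by
  rw [Nat.totient_prime_pow_succ hq]
  refine Nat.Coprime.mul_left (Nat.Coprime.pow_left e ?_) ?_ <;>
    exact ((Nat.prime_three.coprime_iff_not_dvd).2 (by omega)).symm

/-- Every residue modulo a prime `≡ 2 (mod 3)` is a cube. -/
theorem exists_cube_root_prime {p : ℕ} (hp : p.Prime) (hp3 : p % 3 = 2) (u : ZMod p) :
    ∃ x : ZMod p, x ^ 3 = u := by
  have : Fact p.Prime := ⟨hp⟩
  rcases eq_or_ne u 0 with rfl | hu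
  · exact ⟨0, by simp⟩
  · have h : Nat.Coprime p.totient 3 := by
      rw [Nat.totient_prime hp]
      exact ((Nat.prime_three.coprime_iff_not_dvd).2 (by omega)).symm
    obtain ⟨x, -, hx⟩ := exists_cube_root h (isUnit_iff_ne_zero.2 hu)
    exact ⟨x, hx⟩

/-- The class of `p` modulo `48 q⁶ r⁶`. -/
theorem exists_class {N q r : ℕ} (hq : q.Prime) (hr : r.Prime) (hq6 : q % 6 = 5) (hr6 : r % 6 = 5)
    (hqr : r ≠ q) (hqN : ¬ q ∣ N) (hrN : ¬ r ∣ N) :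
    ∃ a : ℕ, Nat.Coprime a (48 * q ^ 6 * r ^ 6) ∧ a % 3 = 2 ∧
      (∃ t n : ZMod 16, ((a : ZMod 16) = 1 ∨ (a : ZMod 16) = 3) ∧ goodEight n.val ∧
        t ^ 3 + 6 * ((a : ZMod 16) ^ 3 + (a : ZMod 16) * n) = (N : ZMod 16)) ∧
      2 * (a : ZMod (q ^ 6)) ^ 3 * (r : ZMod (q ^ 6)) ^ 18 = (N : ZMod (q ^ 6)) ∧
      4 * (a : ZMod (r ^ 6)) ^ 3 * (q : ZMod (r ^ 6)) ^ 18 = (N : ZMod (r ^ 6)) := by
  have : NeZero (q ^ 6) := ⟨pow_ne_zero 6 hq.ne_zero⟩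
  have : NeZero (r ^ 6) := ⟨pow_ne_zero 6 hr.ne_zero⟩
  obtain ⟨p₀, t, n, hp₀, hn, he⟩ := exists_classes_sixteen (N : ZMod 16)
  have hunit : ∀ (s a : ℕ), s.Prime → ¬ s ∣ a → IsUnit (a : ZMod (s ^ 6)) := fun s a hs h =>
    (ZMod.isUnit_iff_coprime a (s ^ 6)).2 (((hs.coprime_iff_not_dvd).2 h).pow_left 6).symm
  have hq2 : ¬ q ∣ 2 := fun h => by have := Nat.le_of_dvd two_pos h; omega
  have hr2 : ¬ r ∣ 2 := fun h => by have := Nat.le_of_dvd two_pos h; omega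
  have huq : IsUnit (2 * (r : ZMod (q ^ 6)) ^ 18) := by
    have := hunit q (2 * r ^ 18) hq fun h => (hq.dvd_mul.1 h).elim hq2 fun h' =>
      hqr ((Nat.prime_dvd_prime_iff_eq hq hr).1 (hq.dvd_of_dvd_pow h')).symm
    simpa using this
  have hur : IsUnit (4 * (q : ZMod (r ^ 6)) ^ 18) := by
    have := hunit r (2 ^ 2 * q ^ 18) hr fun h => (hr.dvd_mul.1 h).elim
      (fun h' => hr2 (hr.dvd_of_dvd_pow h')) fun h' =>
        hqr ((Nat.prime_dvd_prime_iff_eq hr hq).1 (hr.dvd_of_dvd_pow h'))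
    simpa using this
  obtain ⟨x, hxu, hx⟩ := exists_cube_root (totient_coprime_three hq hq6 5)
    ((hunit q N hq hqN).mul huq.unit⁻¹.isUnit)
  obtain ⟨y, hyu, hy⟩ := exists_cube_root (totient_coprime_three hr hr6 5)
    ((hunit r N hr hrN).mul hur.unit⁻¹.isUnit)
  have hc1 : Nat.Coprime 16 3 := by norm_num
  obtain ⟨a₁, ha16, ha3⟩ := Nat.chineseRemainder hc1 p₀.val 2
  have hcq : Nat.Coprime (16 * 3) (q ^ 6) := by
    refine Nat.Coprime.pow_right 6 ((hq.coprime_iff_not_dvd).2 fun h => ?_).symm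
    rcases hq.dvd_mul.1 (show q ∣ 2 ^ 4 * 3 by norm_num at h ⊢; exact h) with h' | h'
    · exact hq2 (hq.dvd_of_dvd_pow h')
    · have := Nat.le_of_dvd (by norm_num) h'
      omega
  obtain ⟨a₂, ha48, haq⟩ := Nat.chineseRemainder hcq a₁ x.val
  have hcr : Nat.Coprime (16 * 3 * q ^ 6) (r ^ 6) := by
    refine Nat.Coprime.pow_right 6 ((hr.coprime_iff_not_dvd).2 fun h => ?_).symm
    rcases hr.dvd_mul.1 (show r ∣ 2 ^ 4 * 3 * q ^ 6 by norm_num at h ⊢; exact h) with h' | h'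
    · rcases hr.dvd_mul.1 h' with h'' | h''
      · exact hr2 (hr.dvd_of_dvd_pow h'')
      · have := Nat.le_of_dvd (by norm_num) h''
        omega
    · exact hqr ((Nat.prime_dvd_prime_iff_eq hr hq).1 (hr.dvd_of_dvd_pow h'))
  obtain ⟨a, haA, har⟩ := Nat.chineseRemainder hcr a₂ y.val
  have h48 : a ≡ a₁ [MOD 16 * 3] :=
    (Nat.ModEq.of_dvd (Dvd.intro (q ^ 6) rfl) haA).trans ha48
  have h16 : (a : ZMod 16) = p₀ := by
    rw [← ZMod.natCast_zmod_val p₀]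
    exact (ZMod.natCast_eq_natCast_iff _ _ _).2 ((Nat.ModEq.of_dvd (Dvd.intro 3 rfl) h48).trans ha16)
  have h3 : a % 3 = 2 := (Nat.ModEq.of_dvd (Dvd.intro_left 16 rfl) h48).trans ha3
  have hqa : (a : ZMod (q ^ 6)) = x := by
    rw [← ZMod.natCast_zmod_val x]
    exact (ZMod.natCast_eq_natCast_iff _ _ _).2
      ((Nat.ModEq.of_dvd (Dvd.intro_left _ rfl) haA).trans haq)
  have hra : (a : ZMod (r ^ 6)) = y := by
    rw [← ZMod.natCast_zmod_val y]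
    exact (ZMod.natCast_eq_natCast_iff _ _ _).2 har
  refine ⟨a, ?_, h3, ⟨t, n, h16 ▸ hp₀, hn, h16 ▸ he⟩, ?_, ?_⟩
  · rw [show 48 = 16 * 3 from rfl]
    refine Nat.Coprime.mul_right (Nat.Coprime.mul_right (Nat.Coprime.mul_right ?_ ?_) ?_) ?_
    · refine (ZMod.isUnit_iff_coprime a 16).1 ?_
      rw [h16]
      rcases hp₀ with rfl | rfl <;> decide
    · exact ((Nat.prime_three.coprime_iff_not_dvd).2 (by omega)).symm
    · exact (ZMod.isUnit_iff_coprime a (q ^ 6)).1 (hqa ▸ hxu)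
    · exact (ZMod.isUnit_iff_coprime a (r ^ 6)).1 (hra ▸ hyu)
  · rw [hqa, hx, mul_comm (2 : ZMod (q ^ 6)), mul_assoc, mul_assoc,
      IsUnit.val_inv_mul huq, mul_one]
  · rw [hra, hy, mul_comm (4 : ZMod (r ^ 6)), mul_assoc, mul_assoc,
      IsUnit.val_inv_mul hur, mul_one]

theorem odd_cast_sixteen {q : ℕ} (hq6 : q % 6 = 5) : (q : ZMod 16).val % 2 = 1 := by
  rw [ZMod.val_natCast]
  omega

/-- **Seven cubes from a prime in the class.** -/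
theorem seven_cubes_of_prime {N q r p a : ℕ} (hq : q.Prime) (hr : r.Prime) (hq6 : q % 6 = 5)
    (hr6 : r % 6 = 5) (hrq : r < q) (hq51 : 50 * q ≤ 51 * r) (hr10 : 10 ≤ r)
    (hp : p.Prime) (hpa : p ≡ a [MOD 48 * q ^ 6 * r ^ 6]) (ha3 : a % 3 = 2)
    (ha16 : ∃ t n : ZMod 16, ((a : ZMod 16) = 1 ∨ (a : ZMod 16) = 3) ∧ goodEight n.val ∧
      t ^ 3 + 6 * ((a : ZMod 16) ^ 3 + (a : ZMod 16) * n) = (N : ZMod 16))
    (haq : 2 * (a : ZMod (q ^ 6)) ^ 3 * (r : ZMod (q ^ 6)) ^ 18 = (N : ZMod (q ^ 6)))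
    (har : 4 * (a : ZMod (r ^ 6)) ^ 3 * (q : ZMod (r ^ 6)) ^ 18 = (N : ZMod (r ^ 6)))
    (hlo : 8 * p ^ 3 * r ^ 18 ≤ N) (hhi : N ≤ 12 * p ^ 3 * r ^ 18) (hpq : q < p) :
    ∃ x : Fin 7 → ℕ, (∀ i, 0 < x i) ∧ ∑ i, x i ^ 3 = N := by
  have hmod : ∀ d : ℕ, d ∣ 48 * q ^ 6 * r ^ 6 → (p : ZMod d) = (a : ZMod d) := fun d hd =>
    (ZMod.natCast_eq_natCast_iff _ _ _).2 (hpa.of_dvd hd)
  have hp16 := hmod 16 (Dvd.dvd.mul_right (Dvd.dvd.mul_right (by norm_num) _) _)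
  have hpQ := hmod (q ^ 6) (Dvd.dvd.mul_right (dvd_mul_left _ _) _)
  have hpR := hmod (r ^ 6) (dvd_mul_left _ _)
  have hp3 : p % 3 = 2 := (show p % 3 = a % 3 from hpa.of_dvd (show 3 ∣ 48 * q ^ 6 * r ^ 6 from
    Dvd.dvd.mul_right (Dvd.dvd.mul_right (by norm_num) _) _)).trans ha3
  rw [← hp16] at ha16
  rw [← hpQ] at haq
  rw [← hpR] at har
  obtain ⟨t₀, n₀, hp13, hn₀, he⟩ := ha16
  -- the seventh cube
  obtain ⟨w, hw⟩ := exists_cube_root_prime hp hp3 (N : ZMod p)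
  have : NeZero p := ⟨hp.ne_zero⟩
  have hcq : ∀ s : ℕ, s.Prime → s % 6 = 5 → ¬ s ∣ 48 := fun s hs hs6 h => by
    rcases hs.dvd_mul.1 (show s ∣ 2 ^ 4 * 3 from h) with h' | h'
    · have := Nat.le_of_dvd two_pos (hs.dvd_of_dvd_pow h')
      omega
    · have := Nat.le_of_dvd (by norm_num) h'
      omega
  have hp48 : ¬ p ∣ 48 := fun h => by
    rcases hp.dvd_mul.1 (show p ∣ 2 ^ 4 * 3 from h) with h' | h'
    · have := Nat.le_of_dvd two_pos (hp.dvd_of_dvd_pow h')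
      omega
    · have := Nat.le_of_dvd (by norm_num) h'
      omega
  have hc1 : Nat.Coprime 16 3 := by norm_num
  obtain ⟨t₁, ht16, ht3⟩ := Nat.chineseRemainder hc1 t₀.val N
  have hc2 : Nat.Coprime (16 * 3) p := ((hp.coprime_iff_not_dvd).2 hp48).symm
  obtain ⟨t₂, ht48, htp⟩ := Nat.chineseRemainder hc2 t₁ w.val
  have hc3 : Nat.Coprime (16 * 3 * p) (q ^ 2 * r ^ 2) := by
    have h : ∀ s : ℕ, s.Prime → s % 6 = 5 → s < p → Nat.Coprime (16 * 3 * p) (s ^ 2) := fun s hs h6 hlt =>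
      (((hs.coprime_iff_not_dvd).2 fun h => (hs.dvd_mul.1 h).elim (hcq s hs h6) fun h' => by
        have := (Nat.prime_dvd_prime_iff_eq hs hp).1 h'
        omega).symm).pow_right 2
    exact Nat.Coprime.mul_right (h q hq hq6 hpq) (h r hr hr6 (by omega))
  obtain ⟨t₃, htA, htQ⟩ := Nat.chineseRemainder hc3 t₂ 0
  obtain ⟨L, hL⟩ : ∃ L, L = 16 * 3 * p * (q ^ 2 * r ^ 2) := ⟨_, rfl⟩
  have hLpos : 0 < L := hL ▸ Nat.mul_pos (Nat.mul_pos (by norm_num) hp.pos)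
    (Nat.mul_pos (pow_pos hq.pos 2) (pow_pos hr.pos 2))
  obtain ⟨t, ht, htpos, htle⟩ : ∃ t, t ≡ t₃ [MOD L] ∧ 0 < t ∧ t ≤ L := by
    by_cases h : t₃ % L = 0
    · exact ⟨L, by rw [Nat.ModEq, Nat.mod_self, h], hLpos, le_rfl⟩
    · exact ⟨t₃ % L, Nat.mod_modEq _ _, Nat.pos_of_ne_zero h, (Nat.mod_lt _ hLpos).le⟩
  have hA' : t ≡ t₂ [MOD 16 * 3 * p] := (ht.of_dvd (hL ▸ dvd_mul_right _ _)).trans htA
  have h48' : t ≡ t₁ [MOD 16 * 3] := (hA'.of_dvd (dvd_mul_right _ _)).trans ht48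
  have t16 : (t : ZMod 16) = t₀ := by
    rw [← ZMod.natCast_zmod_val t₀]
    exact (ZMod.natCast_eq_natCast_iff _ _ _).2 ((h48'.of_dvd (dvd_mul_right _ _)).trans ht16)
  have t3 : (t : ZMod 3) = (N : ZMod 3) :=
    (ZMod.natCast_eq_natCast_iff _ _ _).2 ((h48'.of_dvd (dvd_mul_left _ _)).trans ht3)
  have tp : (t : ZMod p) = w := by
    rw [← ZMod.natCast_zmod_val w]
    exact (ZMod.natCast_eq_natCast_iff _ _ _).2 ((hA'.of_dvd (dvd_mul_left _ _)).trans htp)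
  have tQR : q ^ 2 * r ^ 2 ∣ t :=
    Nat.modEq_zero_iff_dvd.1 ((ht.of_dvd (hL ▸ dvd_mul_left _ _)).trans htQ)
  have tQ : ((t : ZMod (q ^ 6))) ^ 3 = 0 := by
    rw [← Nat.cast_pow, ZMod.natCast_eq_zero_iff, show q ^ 6 = (q ^ 2) ^ 3 by ring]
    exact pow_dvd_pow_of_dvd ((dvd_mul_right _ _).trans tQR) 3
  have tR : ((t : ZMod (r ^ 6))) ^ 3 = 0 := by
    rw [← Nat.cast_pow, ZMod.natCast_eq_zero_iff, show r ^ 6 = (r ^ 2) ^ 3 by ring]
    exact pow_dvd_pow_of_dvd ((dvd_mul_left _ _).trans tQR) 3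
  -- the number left for the six cubes
  obtain ⟨W, hW⟩ : ∃ W : ℤ, W = (N : ℤ) - (t : ℤ) ^ 3 - (4 * (q : ℤ) ^ 18 + 2 * (r : ℤ) ^ 18) * (p : ℤ) ^ 3 :=
    ⟨_, rfl⟩
  obtain ⟨q18, -, q6', -⟩ := sixth_pow_sixteen _ (odd_cast_sixteen hq6)
  obtain ⟨-, r18, r6', -⟩ := sixth_pow_sixteen _ (odd_cast_sixteen hr6)
  have W16 : (W : ZMod 16) = 6 * ((p : ZMod 16) * n₀) := by
    rw [hW]
    push_cast
    rw [t16, q18, r18, ← he]
    ring
  have hd2 : (2 : ℤ) ∣ W := by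
    have h : ((2 : ℕ) : ℤ) ∣ W := by
      rw [← ZMod.intCast_zmod_eq_zero_iff_dvd, ← map_intCast (ZMod.castHom (show 2 ∣ 16 by norm_num) (ZMod 2)),
        W16, map_mul, show (ZMod.castHom (show 2 ∣ 16 by norm_num) (ZMod 2)) 6 = 0 from by decide, zero_mul]
    simpa using h
  have hd3 : ((3 : ℕ) : ℤ) ∣ W := by
    rw [← ZMod.intCast_zmod_eq_zero_iff_dvd, hW]
    push_cast
    have c3 : ∀ u : ZMod 3, u ^ 3 = u := by decide
    have s3 : ∀ s : ℕ, s % 6 = 5 → (s : ZMod 3) = 2 := fun s hs => by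
      rw [← ZMod.natCast_mod, show s % 3 = 2 by omega]
      rfl
    rw [c3 (t : ZMod 3), t3, s3 q hq6, s3 r hr6, sub_self, zero_sub, neg_eq_zero]
    generalize (p : ZMod 3) = u
    revert u
    decide
  have hdp : (p : ℤ) ∣ W := by
    rw [← ZMod.intCast_zmod_eq_zero_iff_dvd, hW]
    push_cast
    rw [tp, hw, ZMod.natCast_self]
    ring
  have hdq : ((q ^ 6 : ℕ) : ℤ) ∣ W := by
    rw [← ZMod.intCast_zmod_eq_zero_iff_dvd, hW]
    push_cast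
    have h0 : (q : ZMod (q ^ 6)) ^ 18 = 0 := by
      rw [← Nat.cast_pow, ZMod.natCast_eq_zero_iff]
      exact pow_dvd_pow q (by norm_num)
    rw [tQ, h0, ← haq]
    ring
  have hdr : ((r ^ 6 : ℕ) : ℤ) ∣ W := by
    rw [← ZMod.intCast_zmod_eq_zero_iff_dvd, hW]
    push_cast
    have h0 : (r : ZMod (r ^ 6)) ^ 18 = 0 := by
      rw [← Nat.cast_pow, ZMod.natCast_eq_zero_iff]
      exact pow_dvd_pow r (by norm_num)
    rw [tR, h0, ← har]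
    ring
  have hp23 : p ≠ 2 ∧ p ≠ 3 := by omega
  have hcop : ∀ u v : ℕ, Nat.Coprime u v → ((u : ℤ) ∣ W) → ((v : ℤ) ∣ W) → ((u * v : ℕ) : ℤ) ∣ W :=
    fun u v huv h1 h2 => by
      rw [Nat.cast_mul]
      exact (Nat.isCoprime_iff_coprime.2 huv).mul_dvd h1 h2
  have hsix : ((6 : ℕ) : ℤ) ∣ W := hcop 2 3 (by norm_num) (by exact_mod_cast hd2) hd3
  have hsixp : ((6 * p : ℕ) : ℤ) ∣ W := hcop 6 p ((hp.coprime_iff_not_dvd).2 fun h => by
    have := Nat.le_of_dvd (by norm_num) h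
    rcases hp.eq_one_or_self_of_dvd p dvd_rfl with h' | -
    · exact hp.ne_one h'
    · omega).symm hsix hdp
  have hcs : ∀ s : ℕ, s.Prime → s % 6 = 5 → s < p → Nat.Coprime (6 * p) (s ^ 6) := fun s hs h6 hlt =>
    (((hs.coprime_iff_not_dvd).2 fun h => (hs.dvd_mul.1 h).elim (fun h' => by
      have := Nat.le_of_dvd (by norm_num) h'
      interval_cases s <;> omega) fun h' => by
      have := (Nat.prime_dvd_prime_iff_eq hs hp).1 h'
      omega).symm).pow_right 6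
  have hall : ((6 * p * q ^ 6 * r ^ 6 : ℕ) : ℤ) ∣ W :=
    hcop _ _ (Nat.Coprime.mul_left (hcs r hr hr6 (by omega))
      (((Nat.coprime_primes hq hr).2 (by omega)).pow 6 6))
      (hcop _ _ (hcs q hq hq6 hpq) hsixp hdq) hdr
  obtain ⟨m, hm⟩ := hall
  push_cast at hm
  -- sizes
  have hpZ : (0 : ℤ) < p := Nat.cast_pos.2 hp.pos
  have hqZ : (0 : ℤ) < q := Nat.cast_pos.2 hq.pos
  have hrZ : (0 : ℤ) < r := Nat.cast_pos.2 hr.pos
  have hq51' : 50 * (q : ℤ) ≤ 51 * r := by exact_mod_cast hq51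
  have hr10' : (10 : ℤ) ≤ r := by exact_mod_cast hr10
  have hrq' : (r : ℤ) ≤ q := by exact_mod_cast hrq.le
  have hlo' : 8 * (p : ℤ) ^ 3 * (r : ℤ) ^ 18 ≤ N := by exact_mod_cast hlo
  have hhi' : (N : ℤ) ≤ 12 * (p : ℤ) ^ 3 * (r : ℤ) ^ 18 := by exact_mod_cast hhi
  have htle' : (t : ℤ) ≤ 48 * p * ((q : ℤ) ^ 2 * (r : ℤ) ^ 2) := by
    have h := htle
    rw [hL] at h
    exact_mod_cast h
  have e18 : 1000 * (q : ℤ) ^ 18 ≤ 1429 * (r : ℤ) ^ 18 := by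
    have h := pow_le_pow_left₀ (by linarith) hq51' 18
    rw [mul_pow, mul_pow] at h
    nlinarith [h, pow_pos hrZ 18]
  have e6 : (t : ℤ) ^ 3 ≤ (p : ℤ) ^ 3 * (r : ℤ) ^ 18 / 4 := by
    rw [Int.le_ediv_iff_mul_le (by norm_num)]
    have h1 := pow_le_pow_left₀ (Int.natCast_nonneg t) htle' 3
    have h2 := pow_le_pow_left₀ (by linarith) hq51' 6
    have h3 := pow_le_pow_left₀ (by norm_num) hr10' 6
    rw [mul_pow, mul_pow] at h2
    have h4 : 4 * 110592 * ((q : ℤ) ^ 6 * (r : ℤ) ^ 6) ≤ (r : ℤ) ^ 18 := by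
      have h5 : (q : ℤ) ^ 6 ≤ 2 * (r : ℤ) ^ 6 := by nlinarith [pow_pos hrZ 6]
      calc 4 * 110592 * ((q : ℤ) ^ 6 * (r : ℤ) ^ 6) ≤ 4 * 110592 * (2 * (r : ℤ) ^ 6 * (r : ℤ) ^ 6) := by
            gcongr
        _ ≤ (r : ℤ) ^ 6 * ((r : ℤ) ^ 6 * (r : ℤ) ^ 6) := by
            rw [show 4 * 110592 * (2 * (r : ℤ) ^ 6 * (r : ℤ) ^ 6) =
              884736 * ((r : ℤ) ^ 6 * (r : ℤ) ^ 6) by ring]
            exact mul_le_mul_of_nonneg_right (le_trans (by norm_num) h3) (by positivity)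
        _ = (r : ℤ) ^ 18 := by ring
    calc (t : ℤ) ^ 3 * 4 ≤ (48 * p * ((q : ℤ) ^ 2 * (r : ℤ) ^ 2)) ^ 3 * 4 := by gcongr
      _ = (p : ℤ) ^ 3 * (4 * 110592 * ((q : ℤ) ^ 6 * (r : ℤ) ^ 6)) := by ring
      _ ≤ _ := mul_le_mul_of_nonneg_left h4 (by positivity)
  have e6' : 4 * (t : ℤ) ^ 3 ≤ (p : ℤ) ^ 3 * (r : ℤ) ^ 18 := by
    have := (Int.le_ediv_iff_mul_le (by norm_num)).1 e6
    linarith
  have hp3Z : (0 : ℤ) < (p : ℤ) ^ 3 := by positivity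
  have hWlo : 0 ≤ W := by
    have := mul_le_mul_of_nonneg_left e18 hp3Z.le
    have : 0 < (p : ℤ) ^ 3 * (r : ℤ) ^ 18 := by positivity
    rw [hW]
    linarith
  have hWhi : W < 6 * (p : ℤ) ^ 3 * (r : ℤ) ^ 18 := by
    have h1 : (r : ℤ) ^ 18 ≤ (q : ℤ) ^ 18 := pow_le_pow_left₀ hrZ.le hrq' 18
    have := mul_le_mul_of_nonneg_left h1 hp3Z.le
    have : 0 < (t : ℤ) ^ 3 := pow_pos (Nat.cast_pos.2 htpos) 3
    rw [hW]
    linarith
  have hCpos : (0 : ℤ) < 6 * p * q ^ 6 * r ^ 6 := by positivity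
  have hm0 : 0 ≤ m := by
    refine nonneg_of_mul_nonneg_right (by rw [← hm]; exact hWlo) hCpos
  obtain ⟨n, rfl⟩ : ∃ n : ℕ, m = n := ⟨m.toNat, (Int.toNat_of_nonneg hm0).symm⟩
  have hbound : (n : ℤ) * (q : ℤ) ^ 6 < (p : ℤ) ^ 2 * (r : ℤ) ^ 12 := by
    have h1 : 6 * (p : ℤ) * (r : ℤ) ^ 6 * ((n : ℤ) * (q : ℤ) ^ 6) <
        6 * (p : ℤ) * (r : ℤ) ^ 6 * ((p : ℤ) ^ 2 * (r : ℤ) ^ 12) := by
      rw [hm] at hWhi
      linarith
    exact lt_of_mul_lt_mul_left h1 (by positivity)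
  have hgood : goodEight n := by
    have h1 := congrArg (fun v : ℤ => (v : ZMod 16)) hm
    simp only [Int.cast_mul, Int.cast_ofNat, Int.cast_pow, Int.cast_natCast] at h1
    rw [W16] at h1
    have h2 : 6 * ((p : ZMod 16) * n) = 6 * ((p : ZMod 16) * n₀) := by
      rw [h1, show (6 : ZMod 16) * p * (q : ZMod 16) ^ 6 * (r : ZMod 16) ^ 6 * n =
        (2 * (q : ZMod 16) ^ 6) * (3 * p * (r : ZMod 16) ^ 6 * n) by ring, q6',
        show (2 : ZMod 16) * (3 * p * (r : ZMod 16) ^ 6 * n) =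
        (2 * (r : ZMod 16) ^ 6) * (3 * p * n) by ring, r6']
      ring
    have h3 := goodEight_of_eq_sixteen _ hp13 (n : ZMod 16) n₀ hn₀ h2
    rw [ZMod.val_natCast] at h3
    unfold goodEight at h3 ⊢
    omega
  obtain ⟨x, y, z, hn⟩ := exists_three_squares_of_goodEight hgood
  have hxy : ∀ u : ℤ, u ^ 2 ≤ n → |(r : ℤ) ^ 3 * u| < p * q ^ 6 := fun u hu => by
    refine abs_lt_of_sq_lt_sq ?_ (by positivity)
    calc ((r : ℤ) ^ 3 * u) ^ 2 = (r : ℤ) ^ 6 * u ^ 2 := by ring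
      _ ≤ (q : ℤ) ^ 6 * n := mul_le_mul (pow_le_pow_left₀ hrZ.le hrq' 6) hu (sq_nonneg u) (by positivity)
      _ < (p : ℤ) ^ 2 * (r : ℤ) ^ 12 := by linarith
      _ ≤ (p : ℤ) ^ 2 * (q : ℤ) ^ 12 := by
          exact mul_le_mul_of_nonneg_left (pow_le_pow_left₀ hrZ.le hrq' 12) (by positivity)
      _ = ((p : ℤ) * q ^ 6) ^ 2 := by ring
  have hz : |(q : ℤ) ^ 3 * z| < p * r ^ 6 := by
    refine abs_lt_of_sq_lt_sq ?_ (by positivity)
    calc ((q : ℤ) ^ 3 * z) ^ 2 = (q : ℤ) ^ 6 * z ^ 2 := by ring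
      _ ≤ (q : ℤ) ^ 6 * n := mul_le_mul_of_nonneg_left (by nlinarith) (by positivity)
      _ < (p : ℤ) ^ 2 * (r : ℤ) ^ 12 := by linarith
      _ = ((p : ℤ) * r ^ 6) ^ 2 := by ring
  obtain ⟨hx1, hx2⟩ := abs_lt.1 (hxy x (by nlinarith))
  obtain ⟨hy1, hy2⟩ := abs_lt.1 (hxy y (by nlinarith))
  obtain ⟨hz1, hz2⟩ := abs_lt.1 hz
  obtain ⟨v, hv⟩ : ∃ v : Fin 7 → ℤ, v = ![(t : ℤ), p * q ^ 6 + r ^ 3 * x, p * q ^ 6 - r ^ 3 * x,
      p * q ^ 6 + r ^ 3 * y, p * q ^ 6 - r ^ 3 * y, p * r ^ 6 + q ^ 3 * z, p * r ^ 6 - q ^ 3 * z] :=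
    ⟨_, rfl⟩
  have hvpos : ∀ i, 0 < v i := by
    intro i
    fin_cases i <;> simp [hv] <;> first | omega | linarith
  refine ⟨fun i => (v i).toNat, fun i => by have := hvpos i; simp only; omega, ?_⟩
  have hsum : ∑ i, v i ^ 3 = (N : ℤ) := by
    rw [hv]
    simp [Fin.sum_univ_succ]
    rw [hW, hn] at hm
    linear_combination -hm
  have hcast : ∀ i, (((v i).toNat : ℕ) : ℤ) = v i := fun i => Int.toNat_of_nonneg (hvpos i).le
  have : ((∑ i, (v i).toNat ^ 3 : ℕ) : ℤ) = (N : ℤ) := by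
    push_cast
    simp only [hcast]
    exact hsum
  exact_mod_cast this

end FA.SevenCubes
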