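import Fermat.Agent.SevenCubes.Primes
import Fermat.Agent.SevenCubes.Watson

/-!
# The theorem of the seven cubes

For large `N` the primes `q`, `r ≍ log N` and a prime `p ≍ (N / r ^ 18) ^ (1/3)` of the class found
by congruences modulo `48 q ^ 6 r ^ 6` give Watson's representation.
-/

set_option autoImplicit false

noncomputable section

namespace FA.SevenCubes

open Filter Real
open scoped Topology

/-- **Linnik's theorem**: every large number is the sum of seven positive cubes. -/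
theorem eventually_seven_cubes :
    ∀ᶠ N : ℕ in atTop, ∃ x : Fin 7 → ℕ, (∀ i, 0 < x i) ∧ ∑ i, x i ^ 3 = N := by
  have hlogN : Tendsto (fun N : ℕ => log (N : ℝ)) atTop atTop :=
    tendsto_log_atTop.comp tendsto_natCast_atTop_atTop
  obtain ⟨X₀, hX₀⟩ := eventually_atTop.1 eventually_exists_prime_class
  have hlo := hlogN.eventually (Real.isLittleO_log_id_atTop.bound (show (0 : ℝ) < 1 / 400 by norm_num))
  filter_upwards [eventually_exists_two_primes, hlo,
    hlogN.eventually_ge_atTop (max (max 25000 (4 * X₀)) (48 * 510 ^ 12 * 4 ^ 13)),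
    eventually_ge_atTop 1] with N hqr hlo hL hN
  obtain ⟨q, r, hq, hr, hq6, hr6, hrq, hq51, hqN, hrN, hr10, hqL⟩ := hqr
  obtain ⟨a, hco, ha3, ha16, haq, har⟩ := exists_class hq hr hq6 hr6 hrq.ne hqN hrN
  obtain ⟨L, hLd⟩ : ∃ L, L = log (N : ℝ) := ⟨_, rfl⟩
  rw [← hLd] at hqL hlo hL
  simp only [max_le_iff] at hL
  obtain ⟨⟨hL1, hL2⟩, hL3⟩ := hL
  have hL0 : 0 < L := by linarith
  have hN0 : (0 : ℝ) < N := Nat.cast_pos.2 (by omega)
  have hr0 : (0 : ℝ) < r := Nat.cast_pos.2 hr.pos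
  have hrqR : (r : ℝ) ≤ q := Nat.cast_le.2 hrq.le
  obtain ⟨X, hX⟩ : ∃ X : ℝ, X = ((N : ℝ) / (8 * (r : ℝ) ^ 18)) ^ ((3 : ℕ) : ℝ)⁻¹ := ⟨_, rfl⟩
  have hX0 : 0 < X := hX ▸ rpow_pos_of_pos (by positivity) _
  have hX3 : X ^ 3 = (N : ℝ) / (8 * (r : ℝ) ^ 18) := by
    rw [hX, rpow_inv_natCast_pow (by positivity) (by norm_num)]
  have hXlog : L / 4 ≤ log X := by
    have h1 : log (X ^ 3) = L - (log 8 + 18 * log r) := by
      rw [hX3, log_div hN0.ne' (by positivity), log_mul (by norm_num) (by positivity), log_pow, hLd]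
      norm_num
    rw [log_pow] at h1
    have h2 : log (r : ℝ) ≤ log 510 + log L := by
      rw [← log_mul (by norm_num) hL0.ne']
      exact log_le_log hr0 (by linarith)
    have h3 : log (8 : ℝ) ≤ 8 := by linarith [log_le_sub_one_of_pos (show (0 : ℝ) < 8 by norm_num)]
    have h4 : log (510 : ℝ) ≤ 510 := by linarith [log_le_sub_one_of_pos (show (0 : ℝ) < 510 by norm_num)]
    have h5 : log L ≤ L / 400 := by
      rw [norm_eq_abs, norm_eq_abs, id_eq, abs_of_pos hL0] at hlo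
      linarith [le_abs_self (log L)]
    push_cast at h1
    linarith [show (25000 : ℝ) ≤ L from hL1]
  have hXge : X₀ ≤ X := by
    have := log_le_sub_one_of_pos hX0
    linarith
  obtain ⟨m, hm⟩ : ∃ m, m = 48 * q ^ 6 * r ^ 6 := ⟨_, rfl⟩
  rw [← hm] at hco
  have : NeZero m := ⟨hm ▸ Nat.mul_ne_zero (Nat.mul_ne_zero (by norm_num) (pow_ne_zero 6 hq.ne_zero))
    (pow_ne_zero 6 hr.ne_zero)⟩
  have hmle : (m : ℝ) ≤ log X ^ (13 : ℕ) := by
    refine le_trans ?_ (pow_le_pow_left₀ (by positivity) hXlog 13)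
    rw [hm]
    push_cast
    calc 48 * (q : ℝ) ^ 6 * (r : ℝ) ^ 6 ≤ 48 * (510 * L) ^ 6 * (510 * L) ^ 6 := by
          gcongr
          linarith
      _ = 48 * 510 ^ 12 * 4 ^ 13 * L ^ 12 / 4 ^ 13 := by ring
      _ ≤ L * L ^ 12 / 4 ^ 13 := by
          gcongr
      _ = (L / 4) ^ 13 := by ring
  obtain ⟨p, hp, hpa, hplo, hphi⟩ := hX₀ X hXge m (a : ZMod m) ((ZMod.isUnit_iff_coprime a m).2 hco) hmle
  refine seven_cubes_of_prime hq hr hq6 hr6 hrq hq51 hr10 hp
    (hm ▸ (ZMod.natCast_eq_natCast_iff _ _ _).1 hpa) ha3 ha16 haq har ?_ ?_ ?_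
  · have h := pow_le_pow_left₀ (Nat.cast_nonneg p) hphi 3
    rw [hX3, le_div_iff₀ (by positivity)] at h
    exact_mod_cast (show (8 : ℝ) * (p : ℝ) ^ 3 * (r : ℝ) ^ 18 ≤ N by linarith)
  · have h := pow_le_pow_left₀ (by positivity) hplo.le 3
    rw [mul_pow, hX3, ← mul_div_assoc, div_le_iff₀ (by positivity)] at h
    exact_mod_cast (show (N : ℝ) ≤ 12 * (p : ℝ) ^ 3 * (r : ℝ) ^ 18 by
      nlinarith [show (0 : ℝ) ≤ (p : ℝ) ^ 3 * (r : ℝ) ^ 18 by positivity])
  · have h1 := quadratic_le_exp_of_nonneg (show 0 ≤ L / 4 by linarith)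
    have h2 : exp (L / 4) ≤ X := (exp_le_exp.2 hXlog).trans_eq (exp_log hX0)
    have h3 : 600 * L ≤ (L / 4) ^ 2 / 2 := by nlinarith
    exact_mod_cast (show (q : ℝ) < p by linarith)

end FA.SevenCubes
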