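import Fermat.Agent.Root.SummarySiegelWalfisz
import Fermat.Agent.Root.SummaryPrimeNumberTheorem

/-!
# The primes for the seven cube theorem

Two primes `≡ 5 (mod 6)` in `(R, 51 R / 50]`, `R = 500 log N`, that do not divide `N`, and, by
Siegel and Walfisz, a prime of a given class modulo `m ≤ (log X) ^ 13` in `(9 X / 10, X]`.
-/

set_option autoImplicit false

noncomputable section

namespace FA.SevenCubes

open Finset Filter Real
open FA.PNT (thetaClass tendsto_thetaClass)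
open scoped Topology

theorem thetaClass_le_of_noPrime {m : ℕ} [NeZero m] (a : ZMod m) {x y : ℝ}
    (h : ∀ p : ℕ, p.Prime → (p : ZMod m) = a → x < p → y < p) : thetaClass a y ≤ thetaClass a x := by
  refine sum_le_sum_of_subset_of_nonneg (fun p hp => ?_) fun p _ _ => Real.log_natCast_nonneg p
  simp only [mem_filter, mem_Icc] at hp ⊢
  refine ⟨⟨hp.1.1, Nat.le_floor (not_lt.1 fun hlt => ?_)⟩, hp.2⟩
  exact absurd (h p hp.2.1 hp.2.2 hlt) (not_lt.2 ((Nat.le_floor_iff' (by omega)).1 hp.1.2))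

/-- **A prime of a class with modulus a power of a logarithm**, in a short interval. -/
theorem eventually_exists_prime_class : ∀ᶠ X : ℝ in atTop, ∀ (m : ℕ) [NeZero m] (a : ZMod m),
    IsUnit a → (m : ℝ) ≤ log X ^ (13 : ℕ) →
      ∃ p : ℕ, p.Prime ∧ (p : ZMod m) = a ∧ 9 / 10 * X < p ∧ (p : ℝ) ≤ X := by
  obtain ⟨c, C, hc, hC, hSW⟩ := SiegelWalfisz.exists_thetaClass_error 14 (by norm_num)
  obtain ⟨K, hK, hk⟩ := SiegelWalfisz.exp_gauge_le 14 (by norm_num) hc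
  filter_upwards [eventually_ge_atTop (4 : ℝ),
    tendsto_log_atTop.eventually_ge_atTop ((2 : ℝ) ^ 14),
    tendsto_log_atTop.eventually_gt_atTop (20 * C * K * 2 ^ 14)] with X hX hL1 hL2
  intro m _ a ha hm
  by_contra hno
  push Not at hno
  obtain ⟨L, hL⟩ : ∃ L, L = log X := ⟨_, rfl⟩
  rw [← hL] at hm hL1 hL2
  have hL0 : 0 < L := lt_of_lt_of_le (by positivity) hL1
  obtain ⟨Y, hY⟩ : ∃ Y, Y = 9 / 10 * X := ⟨_, rfl⟩
  have hY2 : 2 ≤ Y := by linarith
  have hhalf : L / 2 ≤ log Y := by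
    rw [hY, hL, Real.log_mul (by norm_num) (by linarith)]
    have h1 : (-1 : ℝ) ≤ log (9 / 10) := by
      have := Real.one_sub_inv_le_log_of_pos (show (0 : ℝ) < 9 / 10 by norm_num)
      norm_num at this ⊢
      linarith
    linarith [show (2 : ℝ) ≤ L from le_trans (by norm_num) hL1]
  have hmY : (m : ℝ) ≤ log Y ^ (14 : ℝ) := by
    rw [show (14 : ℝ) = ((14 : ℕ) : ℝ) by norm_num, rpow_natCast]
    refine hm.trans (le_trans ?_ (pow_le_pow_left₀ (by linarith) hhalf 14))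
    rw [div_pow, le_div_iff₀ (by positivity), pow_succ L 13]
    exact mul_le_mul_of_nonneg_left hL1 (by positivity)
  have hmX : (m : ℝ) ≤ log X ^ (14 : ℝ) := by
    rw [← hL, show (14 : ℝ) = ((14 : ℕ) : ℝ) by norm_num, rpow_natCast]
    exact hm.trans (pow_le_pow_right₀ (le_trans (by norm_num) hL1) (by norm_num))
  have h1 := (abs_le.1 (hSW m a ha X (by linarith) hmX)).1
  have h2 := (abs_le.1 (hSW m a ha Y hY2 hmY)).2
  have h3 : thetaClass a X ≤ thetaClass a Y :=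
    thetaClass_le_of_noPrime a fun p hp hpa hlt => hno p hp hpa (hY ▸ hlt)
  have hb : ∀ Z : ℝ, 2 ≤ Z → L / 2 ≤ log Z → Z ≤ X →
      C * Z * exp (-(c * SiegelWalfisz.gauge Z)) ≤ C * X * (K * 2 ^ 14 / L ^ 14) := fun Z hZ hZL hZX => by
    refine mul_le_mul (mul_le_mul_of_nonneg_left hZX hC.le) ((hk Z hZ).trans ?_) (exp_pos _).le
      (by positivity)
    rw [show (14 : ℝ) = ((14 : ℕ) : ℝ) by norm_num, rpow_natCast]
    refine (div_le_div_of_nonneg_left hK.le (by positivity)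
      (pow_le_pow_left₀ (by positivity) hZL 14)).trans (le_of_eq ?_)
    rw [div_pow]
    field_simp
  have h4 := hb X (by linarith) (by linarith) le_rfl
  have h5 := hb Y hY2 hhalf (by linarith)
  have hφ : (L ^ 13)⁻¹ ≤ (m.totient : ℝ)⁻¹ :=
    inv_anti₀ (Nat.cast_pos.2 (Nat.totient_pos.2 (NeZero.pos m)))
      ((Nat.cast_le.2 (Nat.totient_le m)).trans hm)
  have h6 : (L ^ 13)⁻¹ * (X / 10) ≤ (m.totient : ℝ)⁻¹ * (X / 10) :=
    mul_le_mul_of_nonneg_right hφ (by linarith)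
  have h7 : 2 * (C * X * (K * 2 ^ 14 / L ^ 14)) < (L ^ 13)⁻¹ * (X / 10) := by
    rw [show 2 * (C * X * (K * 2 ^ 14 / L ^ 14)) = (20 * C * K * 2 ^ 14) / L * ((L ^ 13)⁻¹ * (X / 10)) by
      field_simp; ring]
    exact mul_lt_of_lt_one_left (by positivity) ((div_lt_one hL0).2 hL2)
  have h8 : (m.totient : ℝ)⁻¹ * X - (m.totient : ℝ)⁻¹ * Y = (m.totient : ℝ)⁻¹ * (X / 10) := by
    rw [hY]
    ring
  linarith

/-- **Two auxiliary primes that do not divide `N`.** -/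
theorem eventually_exists_two_primes : ∀ᶠ N : ℕ in atTop, ∃ q r : ℕ, q.Prime ∧ r.Prime ∧
    q % 6 = 5 ∧ r % 6 = 5 ∧ r < q ∧ 50 * q ≤ 51 * r ∧ ¬ q ∣ N ∧ ¬ r ∣ N ∧
      10 ≤ r ∧ (q : ℝ) ≤ 510 * log N := by
  have ha : IsUnit (5 : ZMod 6) := by decide
  have hφ : ((6 : ℕ).totient : ℝ)⁻¹ = 1 / 2 := by
    rw [show (6 : ℕ).totient = 2 by decide]
    norm_num
  have hθ := tendsto_thetaClass (5 : ZMod 6) ha
  rw [hφ] at hθ
  have hR : Tendsto (fun N : ℕ => 500 * log (N : ℝ)) atTop atTop :=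
    (tendsto_log_atTop.comp tendsto_natCast_atTop_atTop).const_mul_atTop (by norm_num)
  have hgap : ∀ᶠ R : ℝ in atTop, 2 / 1000 * R + log (51 / 50 * R) <
      thetaClass (5 : ZMod 6) (51 / 50 * R) - thetaClass (5 : ZMod 6) R := by
    have hlo := Real.isLittleO_log_id_atTop.bound (show (0 : ℝ) < 1 / 1000 by norm_num)
    have h1 := tendsto_id.const_mul_atTop (show (0 : ℝ) < 51 / 50 by norm_num)
    filter_upwards [(hθ.comp h1).eventually (eventually_gt_nhds (show (1 / 2 : ℝ) - 1 / 1000 < 1 / 2 by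
      norm_num)), hθ.eventually (eventually_lt_nhds (show (1 / 2 : ℝ) < 1 / 2 + 1 / 1000 by norm_num)),
      h1.eventually hlo, eventually_gt_atTop (0 : ℝ)] with R g1 g2 g3 hR0
    simp only [Function.comp_apply, id_eq] at g1 g3
    rw [lt_div_iff₀ (by positivity)] at g1
    rw [div_lt_iff₀ hR0] at g2
    rw [Real.norm_eq_abs, Real.norm_eq_abs, abs_of_pos (show (0 : ℝ) < 51 / 50 * R by positivity)] at g3
    linarith [le_abs_self (log (51 / 50 * R))]
  filter_upwards [hR.eventually hgap, hR.eventually_ge_atTop 11, eventually_ge_atTop 2] with N hgap hR11 hN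
  obtain ⟨R, hRd⟩ : ∃ R, R = 500 * log (N : ℝ) := ⟨_, rfl⟩
  rw [← hRd] at hgap hR11
  obtain ⟨S, hS⟩ : ∃ S, S = (Ioc ⌊R⌋₊ ⌊51 / 50 * R⌋₊).filter fun p : ℕ =>
      p.Prime ∧ (p : ZMod 6) = 5 := ⟨_, rfl⟩
  have hdiff : thetaClass (5 : ZMod 6) (51 / 50 * R) - thetaClass (5 : ZMod 6) R =
      ∑ p ∈ S, log p := by
    have hle : ⌊R⌋₊ ≤ ⌊51 / 50 * R⌋₊ := Nat.floor_mono (by linarith)
    rw [thetaClass, thetaClass, hS, sub_eq_iff_eq_add', ← sum_union (disjoint_left.2 fun p h1 h2 => by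
      simp only [mem_filter, mem_Icc, mem_Ioc] at h1 h2
      omega)]
    refine sum_congr ?_ fun _ _ => rfl
    ext p
    simp only [mem_union, mem_filter, mem_Icc, mem_Ioc]
    constructor
    · rintro ⟨⟨h1, h2⟩, h3⟩
      rcases le_or_gt p ⌊R⌋₊ with h | h
      · exact Or.inl ⟨⟨h1, h⟩, h3⟩
      · exact Or.inr ⟨⟨h, h2⟩, h3⟩
    · rintro (⟨⟨h1, h2⟩, h3⟩ | ⟨⟨h1, h2⟩, h3⟩)
      · exact ⟨⟨h1, h2.trans hle⟩, h3⟩
      · exact ⟨⟨h3.1.one_le, h2⟩, h3⟩
  have hdiv : ∑ p ∈ S.filter (fun p => p ∣ N), log p ≤ log (N : ℝ) := by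
    have h1 : (∏ p ∈ S.filter (fun p => p ∣ N), p) ∣ N := by
      refine Finset.prod_primes_dvd N (fun p hp => ?_) fun p hp => (mem_filter.1 hp).2
      rw [hS, mem_filter, mem_filter] at hp
      exact Nat.prime_iff.1 hp.1.2.1
    have hne : ∀ p ∈ S.filter (fun p => p ∣ N), ((p : ℕ) : ℝ) ≠ 0 := fun p hp => by
      rw [hS, mem_filter, mem_filter] at hp
      exact Nat.cast_ne_zero.2 hp.1.2.1.ne_zero
    rw [← log_prod hne, ← Nat.cast_prod]
    refine log_le_log (Nat.cast_pos.2 (Nat.pos_of_ne_zero fun h => ?_))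
      (Nat.cast_le.2 (Nat.le_of_dvd (by omega) h1))
    rw [h, zero_dvd_iff] at h1
    omega
  have htwo : ∃ a ∈ S.filter (fun p => ¬ p ∣ N), ∃ b ∈ S.filter (fun p => ¬ p ∣ N), a ≠ b := by
    rw [← Finset.one_lt_card]
    by_contra hle
    have hsmall : ∑ p ∈ S.filter (fun p => ¬ p ∣ N), log p ≤ log (51 / 50 * R) := by
      refine (sum_le_card_nsmul _ _ (log (51 / 50 * R)) fun p hp => ?_).trans ?_
      · rw [hS, mem_filter, mem_filter, mem_Ioc] at hp
        exact log_le_log (Nat.cast_pos.2 hp.1.2.1.pos)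
          ((Nat.le_floor_iff (by linarith)).1 hp.1.1.2)
      · rw [nsmul_eq_mul]
        exact mul_le_of_le_one_left (log_nonneg (by linarith))
          (by exact_mod_cast (not_lt.1 hle))
    have hsplit := sum_filter_add_sum_filter_not S (fun p => p ∣ N) fun p : ℕ => log (p : ℝ)
    rw [← hdiff] at hsplit
    linarith [hsmall, hdiv, hgap,
      show 2 / 1000 * R = log (N : ℝ) by rw [hRd]; ring]
  obtain ⟨a, haS, b, hbS, hab⟩ := htwo
  have key : ∀ q ∈ S.filter (fun p => ¬ p ∣ N),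
      q.Prime ∧ q % 6 = 5 ∧ ¬ q ∣ N ∧ R < q ∧ (q : ℝ) ≤ 51 / 50 * R := fun q hq => by
    rw [hS, mem_filter, mem_filter, mem_Ioc] at hq
    obtain ⟨⟨⟨h1, h2⟩, hqp, hq5⟩, hqN⟩ := hq
    refine ⟨hqp, ?_, hqN, Nat.lt_of_floor_lt h1, (Nat.le_floor_iff (by linarith)).1 h2⟩
    have := congrArg ZMod.val hq5
    rwa [ZMod.val_natCast] at this
  rcases lt_or_gt_of_ne hab with hlt | hlt
  · obtain ⟨hq, hq6, hqN, hqR, hqR'⟩ := key b hbS
    obtain ⟨hr, hr6, hrN, hrR, hrR'⟩ := key a haS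
    exact ⟨b, a, hq, hr, hq6, hr6, hlt, by exact_mod_cast (show (50 : ℝ) * b ≤ 51 * a by linarith),
      hqN, hrN, by exact_mod_cast (show (10 : ℝ) ≤ a by linarith), by linarith⟩
  · obtain ⟨hq, hq6, hqN, hqR, hqR'⟩ := key a haS
    obtain ⟨hr, hr6, hrN, hrR, hrR'⟩ := key b hbS
    exact ⟨a, b, hq, hr, hq6, hr6, hlt, by exact_mod_cast (show (50 : ℝ) * a ≤ 51 * b by linarith),
      hqN, hrN, by exact_mod_cast (show (10 : ℝ) ≤ b by linarith), by linarith⟩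

end FA.SevenCubes
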